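/-
Programme T1B (row 38 via S44), item (X1) NON-EIS (helper74): a NON-EISENSTEIN GOOD PRIME.

For an elliptic curve `E/ℚ` with `E[p]` irreducible (`p` odd), an integral model `W` and any `L > 0`
there is a prime `ℓ ∤ L`, `ℓ ≠ p`, good for `W`, with `a_ℓ(W) ≢ ℓ + 1 (mod p)` — the hypothesis
`hne : ¬ (p : ℤ) ∣ a - l1` of `T1B/Local46/Chain.exists_delta_ne_zero` (`a = a_ℓ`, `l1 = ℓ + 1`).

This is a repackaging of chapter (EC) of S41 (helper8): `ES/EC/ECFinal8.exists_good_prime_not_dvd_card`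
(Chebotarev + irreducibility + lifting of torsion points), in the shape wanted by GLOBAL44/LOCAL44.
Also the Frey-package form and the ideal form (`𝔪 ∋ p` maximal in `ℤ̄ ⊂ ℂ`).
-/
import Mathlib
import Fermat.Agent.ES.EC.ECFinal8
import Fermat.Agent.S13.FreyDelta

set_option autoImplicit false

open WeierstrassCurve

namespace Fermat.Agent.T1B.NonEis74

/-- **(X1) NON-EIS.** A good prime `ℓ ∤ L`, `ℓ ≠ p`, with `p ∤ a_ℓ(W) - (ℓ + 1)`. -/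
theorem exists_nonEisenstein_prime (E : WeierstrassCurve ℚ) [E.IsElliptic]
    {W : WeierstrassCurve ℤ} (hW : W.IsIntegralModelOf E) {p : ℕ} (hp : p.Prime) (hp2 : p ≠ 2)
    (hirr : WeierstrassCurve.Affine.Point.GaloisRepIsIrreducible (K := AlgebraicClosure ℚ) ℚ E p)
    (L : ℕ) (hL : 0 < L) :
    ∃ ℓ : ℕ, ℓ.Prime ∧ ¬ ℓ ∣ L ∧ ℓ ≠ p ∧ W.IsGoodPrimeFor ℓ ∧
      ¬ (p : ℤ) ∣ (W.apOfModel ℓ - ((ℓ : ℤ) + 1)) := by
  obtain ⟨ℓ, hℓ, hℓT, hgood, hℓp, hnd⟩ :=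
    Fermat.Agent.ES.EC.ECFinal8.exists_good_prime_not_dvd_card E hW hp hp2 hirr
      (Finset.range (L + 1))
  refine ⟨ℓ, hℓ, fun hdvd => hℓT ?_, hℓp, hgood, fun hdvd => hnd ?_⟩
  · exact Finset.mem_range.2 (Nat.lt_succ_of_le (Nat.le_of_dvd hL hdvd))
  · have : (p : ℤ) ∣ -(W.apOfModel ℓ - ((ℓ : ℤ) + 1)) := (dvd_neg).2 hdvd
    rwa [neg_sub] at this

/-- The same, avoiding in addition a finite set `T` of primes. -/
theorem exists_nonEisenstein_prime_notMem (E : WeierstrassCurve ℚ) [E.IsElliptic]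
    {W : WeierstrassCurve ℤ} (hW : W.IsIntegralModelOf E) {p : ℕ} (hp : p.Prime) (hp2 : p ≠ 2)
    (hirr : WeierstrassCurve.Affine.Point.GaloisRepIsIrreducible (K := AlgebraicClosure ℚ) ℚ E p)
    (L : ℕ) (hL : 0 < L) (T : Finset ℕ) :
    ∃ ℓ : ℕ, ℓ.Prime ∧ ¬ ℓ ∣ L ∧ ℓ ∉ T ∧ ℓ ≠ p ∧ W.IsGoodPrimeFor ℓ ∧
      ¬ (p : ℤ) ∣ (W.apOfModel ℓ - ((ℓ : ℤ) + 1)) := by
  classical
  obtain ⟨ℓ, hℓ, hℓT, hgood, hℓp, hnd⟩ :=
    Fermat.Agent.ES.EC.ECFinal8.exists_good_prime_not_dvd_card E hW hp hp2 hirr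
      (Finset.range (L + 1) ∪ T)
  refine ⟨ℓ, hℓ, fun hdvd => hℓT ?_, fun hT => hℓT (Finset.mem_union_right _ hT), hℓp, hgood,
    fun hdvd => hnd ?_⟩
  · exact Finset.mem_union_left _
      (Finset.mem_range.2 (Nat.lt_succ_of_le (Nat.le_of_dvd hL hdvd)))
  · have : (p : ℤ) ∣ -(W.apOfModel ℓ - ((ℓ : ℤ) + 1)) := (dvd_neg).2 hdvd
    rwa [neg_sub] at this

/-- The Frey curve is an elliptic curve. -/
theorem freyCurve_isElliptic (P : FreyPackage) : P.freyCurve.IsElliptic :=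
  ⟨isUnit_iff_ne_zero.2 (Fermat.Agent.S13.FreyDelta.freyCurve_Δ_ne_zero P)⟩

/-- **(X1) for the Frey curve**, in the vocabulary of `Top68/Iface.MAIN44`. -/
theorem exists_nonEisenstein_prime_frey (P : FreyPackage) {W : WeierstrassCurve ℤ}
    (hW : W.IsIntegralModelOf P.freyCurve)
    (hirr : WeierstrassCurve.Affine.Point.GaloisRepIsIrreducible (K := AlgebraicClosure ℚ) ℚ
      P.freyCurve P.p)
    (L : ℕ) (hL : 0 < L) :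
    ∃ ℓ : ℕ, ℓ.Prime ∧ ¬ ℓ ∣ L ∧ ℓ ≠ P.p ∧ W.IsGoodPrimeFor ℓ ∧
      ¬ (P.p : ℤ) ∣ (W.apOfModel ℓ - ((ℓ : ℤ) + 1)) := by
  have := freyCurve_isElliptic P
  exact exists_nonEisenstein_prime P.freyCurve hW P.pp (by have := P.hp5; omega) hirr L hL

/-- **Ideal form**: for a maximal ideal `𝔪 ∋ p` of `ℤ̄ ⊂ ℂ`, `a_ℓ(W) - (ℓ + 1) ∉ 𝔪`. -/
theorem exists_nonEisenstein_prime_ideal (E : WeierstrassCurve ℚ) [E.IsElliptic]
    {W : WeierstrassCurve ℤ} (hW : W.IsIntegralModelOf E) {p : ℕ} (hp : p.Prime) (hp2 : p ≠ 2)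
    (hirr : WeierstrassCurve.Affine.Point.GaloisRepIsIrreducible (K := AlgebraicClosure ℚ) ℚ E p)
    {𝔪 : Ideal (integralClosure ℤ ℂ)} (hmax : 𝔪.IsMaximal)
    (hpm : (p : integralClosure ℤ ℂ) ∈ 𝔪) (L : ℕ) (hL : 0 < L) :
    ∃ ℓ : ℕ, ℓ.Prime ∧ ¬ ℓ ∣ L ∧ ℓ ≠ p ∧ W.IsGoodPrimeFor ℓ ∧
      ((W.apOfModel ℓ : ℤ) : integralClosure ℤ ℂ) - ((ℓ : integralClosure ℤ ℂ) + 1) ∉ 𝔪 := by
  obtain ⟨ℓ, hℓ, hℓT, hgood, hℓp, hnd⟩ :=
    Fermat.Agent.ES.EC.ECFinal8.exists_good_prime_not_eisenstein E hW hp hp2 hirr hmax hpm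
      (Finset.range (L + 1))
  refine ⟨ℓ, hℓ, fun hdvd => hℓT ?_, hℓp, hgood, hnd⟩
  exact Finset.mem_range.2 (Nat.lt_succ_of_le (Nat.le_of_dvd hL hdvd))

end Fermat.Agent.T1B.NonEis74
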